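import Fermat.Agent.S37.H877.GalTwist
import Fermat.Agent.S24.FFFinite

/-!
# S37 / [GAL] (helper877): inertia invariance of a geometric place reduction

`geoRed_inertia` : for `G : GeoRed A N` and `τ` in the inertia group of `A`,
`G.r (τ • P) = G.r P` for every place `P` of `ℚ̄(X₀(N))`.

Proof.  Choose the chart (`j(P) ∈ A` or `j⁻¹(P) ∈ A`).  For `c` integral over `A[j]` let
`c' = τ⁻¹ c` (same reduction, again integral).  `c'` has a value `b₁ ∈ A` at `P`, hence `c` has the
value `τ b₁` at `τ P`; by value compatibility `c̄` takes the value `\bar b₁` at `r P` and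
`\bar{τ b₁} = \bar b₁` at `r (τ P)`.  Separation gives `r P = r (τ P)`.
-/

set_option autoImplicit false
set_option synthInstance.maxHeartbeats 400000
set_option linter.unusedSectionVars false
set_option linter.unusedVariables false

noncomputable section

namespace Fermat.Agent.S37.H877

open ModularCurve ValuationSubring AlgebraicCurve HahnSeries Fermat.Agent.S37.Core Polynomial

local notation "Qb" => AlgebraicClosure ℚ

section Integrality

variable {A : ValuationSubring Qb} {N : ℕ} [NeZero N]

/-- values exist: the residue field of a place of `ℚ̄(X₀(N))` is `ℚ̄` -/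
theorem exists_hasValue (P : Place Qb (modularFunctionFieldBar N))
    {f : modularFunctionFieldBar N} (hf : f ∈ P.toValuationSubring) :
    ∃ b : Qb, HasValue P f b := by
  have hfd := Fermat.Agent.Lib.RR.H804.finiteDimensional_jF N
  exact Fermat.Agent.S24.FF.exists_const_sub_mem_nonunits P
    (Fermat.Agent.Lib.RR.H804.transcendental_jF N) hf

/-- the constants as a subring of the valuation ring of a place -/
def constHom (P : Place Qb (modularFunctionFieldBar N)) : Qb →+* P.toValuationSubring where
  toFun x := ⟨algebraMap Qb (modularFunctionFieldBar N) x, P.algebraMap_mem' x⟩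
  map_one' := Subtype.ext (map_one _)
  map_mul' x y := Subtype.ext (map_mul _ x y)
  map_zero' := Subtype.ext (map_zero _)
  map_add' x y := Subtype.ext (map_add _ x y)

/-- the valuation ring of a place inside `ℚ̄((q))` -/
def seriesHom (P : Place Qb (modularFunctionFieldBar N)) :
    P.toValuationSubring →+* LaurentSeries Qb :=
  ((modularFunctionFieldBar N).val : modularFunctionFieldBar N →+* LaurentSeries Qb).comp
    P.toValuationSubring.subtype

theorem seriesHom_injective (P : Place Qb (modularFunctionFieldBar N)) :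
    Function.Injective (seriesHom P) := by
  intro x y h
  exact Subtype.ext (Subtype.ext h)

theorem residue_eq_of_hasValue (P : Place Qb (modularFunctionFieldBar N))
    {f : modularFunctionFieldBar N} (hf : f ∈ P.toValuationSubring) {b : Qb}
    (h : HasValue P f b) :
    IsLocalRing.residue P.toValuationSubring ⟨f, hf⟩ =
      IsLocalRing.residue P.toValuationSubring (constHom P b) := by
  rw [← sub_eq_zero, ← map_sub, IsLocalRing.residue_eq_zero_iff,
    ← ValuationSubring.coe_mem_nonunits_iff]
  exact h

/-- **integrality of values**: if `c` is integral over `A[j]` and `j` has a value in `A` at `P`,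
then `c` has a value in `A` at `P`. -/
theorem exists_value_of_intOver (P : Place Qb (modularFunctionFieldBar N))
    (j c : IntElt A N) (hc : IntOver j.y c.y) (a : A) (ha : HasValue P j.gen (a : Qb)) :
    ∃ b : A, HasValue P c.gen (b : Qb) := by
  obtain ⟨p, hp, h0⟩ := hc
  have hjO : j.gen ∈ P.toValuationSubring := hasValue_mem ha
  -- the evaluation `A[X] → O_P`, `X ↦ j`
  let θ : Polynomial A →+* P.toValuationSubring :=
    Polynomial.eval₂RingHom ((constHom P).comp A.subtype) ⟨j.gen, hjO⟩
  have hθC : ∀ x : A, θ (Polynomial.C x) = constHom P (x : Qb) := fun x => by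
    simp [θ]
  have hθX : θ Polynomial.X = ⟨j.gen, hjO⟩ := by simp [θ]
  have hcomp : (seriesHom P).comp θ = (coeffMap A.subtype).comp (evalSeries A j.y) := by
    apply Polynomial.ringHom_ext
    · intro x
      rw [RingHom.comp_apply, RingHom.comp_apply, hθC, evalSeries_C, coeffMap_hahnC]
      show algebraMap Qb (LaurentSeries Qb) (x : Qb) = HahnSeries.C (A.subtype x)
      rw [algebraMap_laurentSeries_eq_single]
      rfl
    · rw [RingHom.comp_apply, RingHom.comp_apply, hθX, evalSeries_X]
      rfl
  have h1 : p.eval₂ ((seriesHom P).comp θ) (c.gen : LaurentSeries Qb) = 0 := by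
    rw [hcomp]
    show p.eval₂ ((coeffMap A.subtype).comp (evalSeries A j.y)) (coeffMap A.subtype c.y) = 0
    rw [← Polynomial.hom_eval₂, h0, map_zero]
  -- `c` is integral over `O_P`, hence lies in `O_P`
  have h2 : IsIntegral P.toValuationSubring c.gen := by
    refine ⟨p.map θ, hp.map θ, ?_⟩
    apply Subtype.ext
    show ((modularFunctionFieldBar N).val : modularFunctionFieldBar N →+* LaurentSeries Qb)
      (Polynomial.eval₂ (algebraMap P.toValuationSubring (modularFunctionFieldBar N)) c.gen
        (p.map θ)) = 0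
    rw [Polynomial.hom_eval₂, Polynomial.eval₂_map]
    exact h1
  obtain ⟨y, hy⟩ := IsIntegrallyClosed.isIntegral_iff.mp h2
  have hcO : c.gen ∈ P.toValuationSubring := by
    rw [← hy]; exact y.2
  have hyc : y = ⟨c.gen, hcO⟩ := Subtype.ext hy
  obtain ⟨b', hb'⟩ := exists_hasValue P hcO
  -- the equation in `O_P`
  have h3 : p.eval₂ θ y = 0 := by
    apply seriesHom_injective P
    rw [Polynomial.hom_eval₂, map_zero, hyc]
    exact h1
  -- reduce to the residue field
  set φ := IsLocalRing.residue P.toValuationSubring with hφ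
  let ψ : Qb →+* IsLocalRing.ResidueField P.toValuationSubring := φ.comp (constHom P)
  have hψ : Function.Injective ψ := RingHom.injective ψ
  have hφj : φ ⟨j.gen, hjO⟩ = ψ (a : Qb) := residue_eq_of_hasValue P hjO ha
  have hφc : φ y = ψ b' := by
    rw [hyc]; exact residue_eq_of_hasValue P hcO hb'
  have hcomp2 : φ.comp θ = (ψ.comp A.subtype).comp (Polynomial.evalRingHom a) := by
    apply Polynomial.ringHom_ext
    · intro x
      rw [RingHom.comp_apply, RingHom.comp_apply, hθC, Polynomial.coe_evalRingHom,
        Polynomial.eval_C]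
      rfl
    · rw [RingHom.comp_apply, RingHom.comp_apply, hθX, Polynomial.coe_evalRingHom,
        Polynomial.eval_X, hφj]
      rfl
  have h4 : p.eval₂ (φ.comp θ) (φ y) = 0 := by
    rw [← Polynomial.hom_eval₂, h3, map_zero]
  rw [hcomp2, hφc, ← Polynomial.eval₂_map] at h4
  have h5 : ψ ((p.map (Polynomial.evalRingHom a)).eval₂ A.subtype b') = 0 := by
    rw [Polynomial.hom_eval₂]
    exact h4
  have h6 : (p.map (Polynomial.evalRingHom a)).eval₂ A.subtype b' = 0 :=
    hψ (by rw [h5, map_zero])
  have h7 : IsIntegral A b' := ⟨p.map (Polynomial.evalRingHom a), hp.map _, h6⟩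
  obtain ⟨b, hb⟩ := IsIntegrallyClosed.isIntegral_iff.mp h7
  refine ⟨b, ?_⟩
  have : ((b : A) : Qb) = b' := hb
  rw [this]
  exact hb'

end Integrality

section Core

variable {A : ValuationSubring Qb} {N : ℕ} [NeZero N]

/-- chart-independent core of the argument -/
theorem inertia_core
    (r : Place Qb (modularFunctionFieldBar N) →
      Place (IsLocalRing.ResidueField A)
        (modularFunctionFieldFullC (IsLocalRing.ResidueField A) N))
    (τ : Qb ≃ₐ[ℚ] Qb) (hτ : τ ∈ A.inertiaSubgroupIn ℚ)
    (j : IntElt A N)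
    (hjτ : arithmeticGalois (modularFunctionFieldFull N) τ • j.gen = j.gen)
    (Good : IntElt A N → Prop)
    (hGood : ∀ c, Good c → IntOver j.y c.y)
    (hGoodTw : ∀ c, Good c → Good (twist c τ⁻¹ (inv_mem hτ)))
    (hj : Good j)
    (vc : ∀ c : IntElt A N, Good c →
      ∀ (P : Place Qb (modularFunctionFieldBar N)) (a b : A),
        HasValue P j.gen a → HasValue P c.gen b → HasValue (r P) c.sp (IsLocalRing.residue A b))
    (sep : ∀ (Q Q' : Place (IsLocalRing.ResidueField A)
        (modularFunctionFieldFullC (IsLocalRing.ResidueField A) N))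
        (a : IsLocalRing.ResidueField A), HasValue Q j.sp a →
        (∀ c : IntElt A N, Good c → ∀ b : IsLocalRing.ResidueField A,
          HasValue Q c.sp b → HasValue Q' c.sp b) → Q = Q')
    (P : Place Qb (modularFunctionFieldBar N)) (a : A) (ha : HasValue P j.gen (a : Qb)) :
    r (arithmeticGalois (modularFunctionFieldFull N) τ • P) = r P := by
  have hdec := Fermat.Agent.A2.H708.mem_decomposition_of_mem_inertiaIn A hτ
  set g := arithmeticGalois (modularFunctionFieldFull N) τ with hg
  symm
  refine sep (r P) (r (g • P)) (IsLocalRing.residue A a) (vc j hj P a a ha ha) ?_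
  intro c hc b hb
  -- the twisted element
  have hc' := hGoodTw c hc
  obtain ⟨b₁, hb₁⟩ := exists_value_of_intOver P j (twist c τ⁻¹ (inv_mem hτ)) (hGood _ hc') a ha
  have h1 := vc _ hc' P a b₁ ha hb₁
  rw [twist_sp] at h1
  have hbb : b = IsLocalRing.residue A b₁ := hasValue_unique hb h1
  -- values at `g • P`
  have h2 := hasValue_smul g hb₁
  have hgen : g • (twist c τ⁻¹ (inv_mem hτ)).gen = c.gen := by
    rw [twist_gen, map_inv, hg, smul_inv_smul]
  rw [hgen] at h2
  have h3 := hasValue_smul g ha
  rw [hjτ] at h3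
  have h4 := vc c hc (g • P) (decompHom τ hdec a) (decompHom τ hdec b₁) h3 h2
  rw [residue_decompHom τ hτ] at h4
  rw [hbb]
  exact h4

end Core

section Main

variable {A : ValuationSubring Qb} {N : ℕ} [NeZero N]

theorem smul_jInt_gen (τ : Qb ≃ₐ[ℚ] Qb) :
    arithmeticGalois (modularFunctionFieldFull N) τ • (jInt A N).gen = (jInt A N).gen := by
  apply Subtype.ext
  show coeffMap (τ : Qb →+* Qb) (coeffMap A.subtype (jqModC A)) = coeffMap A.subtype (jqModC A)
  rw [coeffMap_jqModC, coeffMap_jqModC]

theorem smul_jInvInt_gen (τ : Qb ≃ₐ[ℚ] Qb) :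
    arithmeticGalois (modularFunctionFieldFull N) τ • (jInvInt A N).gen = (jInvInt A N).gen := by
  apply Subtype.ext
  show coeffMap (τ : Qb →+* Qb) (coeffMap A.subtype (jInvSeries A))
    = coeffMap A.subtype (jInvSeries A)
  rw [coeffMap_jInvSeries, coeffMap_jInvSeries]

theorem intOver_of_isInf (j c : IntElt A N) (hj : j.y * jqModC A = 1) (hc : c.IsInf) :
    IntOver j.y c.y := by
  obtain ⟨u, hu, h⟩ := hc
  have : u = j.y := by
    calc u = u * (j.y * jqModC A) := by rw [hj, mul_one]
      _ = (u * jqModC A) * j.y := by ring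
      _ = j.y := by rw [hu, one_mul]
  rwa [this] at h

/-- **PIECE [GAL]** of the S37 row plan (exact statement of `Skeleton2.geoRed_inertia`). -/
theorem geoRed_inertia (N : ℕ) [NeZero N] (ℓ : ℕ) (hℓ : ℓ.Prime)
    (A : ValuationSubring (AlgebraicClosure ℚ)) (hA : A.LiesOverPrime ℓ) (G : GeoRed A N)
    (τ : AlgebraicClosure ℚ ≃ₐ[ℚ] AlgebraicClosure ℚ) (hτ : τ ∈ A.inertiaSubgroupIn ℚ)
    (P : Place (AlgebraicClosure ℚ) (modularFunctionFieldBar N)) :
    G.r (arithmeticGalois (modularFunctionFieldFull N) τ • P) = G.r P := by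
  -- the two charts
  have fin : ∀ a : A, HasValue P (jInt A N).gen (a : Qb) →
      G.r (arithmeticGalois (modularFunctionFieldFull N) τ • P) = G.r P := fun a ha =>
    inertia_core G.r τ hτ (jInt A N) (smul_jInt_gen τ) (fun c => c.IsFin)
      (fun c hc => hc) (fun c hc => twist_isFin c _ _ hc) (intOver_self _)
      (G.vc_fin (jInt A N) rfl) (G.sep_fin (jInt A N) rfl) P a ha
  have inf : ∀ a : A, HasValue P (jInvInt A N).gen (a : Qb) →
      G.r (arithmeticGalois (modularFunctionFieldFull N) τ • P) = G.r P := fun a ha =>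
    inertia_core G.r τ hτ (jInvInt A N) (smul_jInvInt_gen τ) (fun c => c.IsInf)
      (fun c hc => intOver_of_isInf (jInvInt A N) c (jInvInt_y_mul A N) hc)
      (fun c hc => twist_isInf c _ _ hc)
      ⟨(jInvInt A N).y, jInvInt_y_mul A N, intOver_self _⟩
      (G.vc_inf (jInvInt A N) (jInvInt_y_mul A N))
      (G.sep_inf (jInvInt A N) (jInvInt_y_mul A N)) P a ha
  have hinv : (jInvInt A N).gen = ((jInt A N).gen)⁻¹ :=
    eq_inv_of_mul_eq_one_left (jInt_gen_mul_jInvInt_gen A N)
  by_cases hjP : (jInt A N).gen ∈ P.toValuationSubring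
  · obtain ⟨a', ha'⟩ := exists_hasValue P hjP
    by_cases haA : a' ∈ A
    · exact fin ⟨a', haA⟩ ha'
    · have ha0 : a' ≠ 0 := by
        rintro rfl
        exact haA A.zero_mem
      have hinvA : a'⁻¹ ∈ A := (A.mem_or_inv_mem a').resolve_left haA
      refine inf ⟨a'⁻¹, hinvA⟩ ?_
      rw [hinv]
      exact hasValue_inv ha' ha0
  · refine inf 0 ?_
    rw [hinv]
    exact hasValue_inv_zero_of_not_mem hjP

end Main

end Fermat.Agent.S37.H877
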