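import Fermat.Agent.S37.H877.GalValue
import Fermat.Agent.Lib.RR.H804.Modular
import Fermat.Agent.A2.H708.Tame

/-!
# S37 / [GAL] (helper877): the two charts, twists of `IntElt`, integrality of values

* `jInt`, `jInvInt` : the `IntElt`s of `j` and `j⁻¹`;
* `IntOver u y` : `y` is integral over `A[u]` inside `A((q))` (`IsFin`, `IsInf` are instances);
* `twist` : the `IntElt` obtained by applying an element of the decomposition group to the
  coefficients; for inertia the reduction does not change;
* `exists_value_of_intOver` : integral functions have values in `A` at places where the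
  coordinate has a value in `A`.
-/

set_option autoImplicit false
set_option synthInstance.maxHeartbeats 400000
set_option linter.unusedSectionVars false

noncomputable section

namespace Fermat.Agent.S37.H877

open ModularCurve ValuationSubring AlgebraicCurve HahnSeries Fermat.Agent.S37.Core Polynomial

local notation "Qb" => AlgebraicClosure ℚ

section Series

variable (R : Type*) [CommRing R]

theorem constantCoeff_jNum_map_eq_one :
    PowerSeries.constantCoeff (jNum.map (Int.castRingHom R)) = 1 := by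
  rw [← PowerSeries.coeff_zero_eq_constantCoeff_apply, PowerSeries.coeff_map,
    PowerSeries.coeff_zero_eq_constantCoeff_apply, constantCoeff_jNum, map_one]

/-- the inverse of `j` as a q-series over any ring -/
def jInvSeries : LaurentSeries R :=
  HahnSeries.single (1 : ℤ) 1 *
    HahnSeries.ofPowerSeries ℤ R (PowerSeries.invOfUnit (jNum.map (Int.castRingHom R)) 1)

theorem jInvSeries_mul_jqModC : jInvSeries R * jqModC R = 1 := by
  have h1 : PowerSeries.invOfUnit (jNum.map (Int.castRingHom R)) 1 *
      jNum.map (Int.castRingHom R) = 1 :=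
    PowerSeries.invOfUnit_mul _ 1 (by rw [constantCoeff_jNum_map_eq_one]; rfl)
  have h2 : (HahnSeries.single (1 : ℤ) (1 : R)) * HahnSeries.single (-1 : ℤ) (1 : R) = 1 := by
    rw [HahnSeries.single_mul_single]
    simp
  rw [jInvSeries, jqModC]
  calc HahnSeries.single (1 : ℤ) (1 : R) *
        HahnSeries.ofPowerSeries ℤ R (PowerSeries.invOfUnit (jNum.map (Int.castRingHom R)) 1) *
        (HahnSeries.single (-1 : ℤ) 1 *
          HahnSeries.ofPowerSeries ℤ R (jNum.map (Int.castRingHom R)))
      = (HahnSeries.single (1 : ℤ) (1 : R) * HahnSeries.single (-1 : ℤ) (1 : R)) *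
        (HahnSeries.ofPowerSeries ℤ R (PowerSeries.invOfUnit (jNum.map (Int.castRingHom R)) 1) *
          HahnSeries.ofPowerSeries ℤ R (jNum.map (Int.castRingHom R))) := by ring
    _ = 1 := by rw [h2, ← map_mul, h1, map_one, one_mul]

variable {R} in
theorem coeffMap_jInvSeries {S : Type*} [CommRing S] (f : R →+* S) :
    coeffMap f (jInvSeries R) = jInvSeries S := by
  have h1 : coeffMap f (jInvSeries R) * jqModC S = 1 := by
    rw [← coeffMap_jqModC f, ← map_mul, jInvSeries_mul_jqModC, map_one]
  have h2 := jInvSeries_mul_jqModC S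
  calc coeffMap f (jInvSeries R)
      = coeffMap f (jInvSeries R) * (jInvSeries S * jqModC S) := by rw [h2, mul_one]
    _ = (coeffMap f (jInvSeries R) * jqModC S) * jInvSeries S := by ring
    _ = jInvSeries S := by rw [h1, one_mul]

end Series

section Charts

variable (A : ValuationSubring Qb) (N : ℕ) [NeZero N]

omit [NeZero N] in
theorem jqModC_mem_bar : jqModC Qb ∈ modularFunctionFieldBar N := by
  have h : jqModC Qb = coeffEmb Qb (jqModC ℚ) := (coeffMap_jqModC _).symm
  rw [h]
  exact coeffEmb_mem_laurentBaseChange Qb (jqModC_mem_full ℚ N)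

/-- the `IntElt` of `j` -/
def jInt : IntElt A N where
  y := jqModC A
  mem := by
    rw [coeffMap_jqModC]
    exact jqModC_mem_bar N
  memk := by
    rw [coeffMap_jqModC]
    exact jqModC_mem_full _ N

theorem jInt_y : (jInt A N).y = jqModC A := rfl

/-- the `IntElt` of `j⁻¹` -/
def jInvInt : IntElt A N where
  y := jInvSeries A
  mem := by
    have h := congrArg (coeffMap A.subtype) (jInvSeries_mul_jqModC A)
    rw [map_mul, map_one, coeffMap_jqModC] at h
    rw [eq_inv_of_mul_eq_one_left h]
    exact inv_mem (jqModC_mem_bar N)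
  memk := by
    have h := congrArg (coeffMap (IsLocalRing.residue A)) (jInvSeries_mul_jqModC A)
    rw [map_mul, map_one, coeffMap_jqModC] at h
    rw [eq_inv_of_mul_eq_one_left h]
    exact inv_mem (jqModC_mem_full _ N)

theorem jInvInt_y_mul : (jInvInt A N).y * jqModC A = 1 := jInvSeries_mul_jqModC A

theorem jInt_gen_mul_jInvInt_gen : (jInvInt A N).gen * (jInt A N).gen = 1 := by
  apply Subtype.ext
  show coeffMap A.subtype (jInvSeries A) * coeffMap A.subtype (jqModC A) = 1
  rw [← map_mul, jInvSeries_mul_jqModC, map_one]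

theorem jInt_gen_eq_jF : (jInt A N).gen = Fermat.Agent.S24.jF N := by
  apply Subtype.ext
  show coeffMap A.subtype (jqModC A) = coeffEmb Qb jq
  rw [coeffMap_jqModC]
  exact (coeffMap_jqModC (algebraMap ℚ Qb)).symm

end Charts

section IntOver

variable {A : ValuationSubring Qb} {N : ℕ}

/-- `y` is integral over `A[u]` inside `A((q))` -/
def IntOver (u y : LaurentSeries A) : Prop :=
  ∃ p : Polynomial (Polynomial A), p.Monic ∧ p.eval₂ (evalSeries A u) y = 0

theorem isFin_iff (c : IntElt A N) : c.IsFin ↔ IntOver (jqModC A) c.y := Iff.rfl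

theorem isInf_iff (c : IntElt A N) :
    c.IsInf ↔ ∃ u : LaurentSeries A, u * jqModC A = 1 ∧ IntOver u c.y := Iff.rfl

theorem evalSeries_C (u : LaurentSeries A) (a : A) :
    evalSeries A u (Polynomial.C a) = HahnSeries.C a := by
  simp [evalSeries]

theorem evalSeries_X (u : LaurentSeries A) :
    evalSeries A u Polynomial.X = u := by
  simp [evalSeries]

theorem coeffMap_hahnC {R S : Type*} [CommRing R] [CommRing S] (f : R →+* S) (a : R) :
    coeffMap f (HahnSeries.C a) = HahnSeries.C (f a) := by
  show coeffMap f (HahnSeries.single 0 a) = HahnSeries.single 0 (f a)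
  exact coeffMap_single f 0 a

theorem intOver_self (u : LaurentSeries A) : IntOver u u := by
  refine ⟨Polynomial.X - Polynomial.C Polynomial.X, Polynomial.monic_X_sub_C _, ?_⟩
  rw [Polynomial.eval₂_sub, Polynomial.eval₂_X, Polynomial.eval₂_C, evalSeries_X, sub_self]

theorem IntOver.coeffMap {u y : LaurentSeries A} (h : IntOver u y) (φ : A →+* A) :
    IntOver (coeffMap φ u) (coeffMap φ y) := by
  obtain ⟨p, hp, h0⟩ := h
  refine ⟨p.map (Polynomial.mapRingHom φ), hp.map _, ?_⟩
  have hcomp : (evalSeries A (ModularCurve.coeffMap φ u)).comp (Polynomial.mapRingHom φ)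
      = (ModularCurve.coeffMap φ).comp (evalSeries A u) := by
    apply Polynomial.ringHom_ext
    · intro a
      simp only [RingHom.comp_apply, Polynomial.coe_mapRingHom, Polynomial.map_C,
        evalSeries_C, coeffMap_hahnC]
    · simp only [RingHom.comp_apply, Polynomial.coe_mapRingHom, Polynomial.map_X,
        evalSeries_X]
  rw [Polynomial.eval₂_map, hcomp, ← Polynomial.hom_eval₂, h0, map_zero]

end IntOver

section Twist

variable {A : ValuationSubring Qb} {N : ℕ}

/-- the restriction of an element of the decomposition group to `A` -/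
def decompHom (τ : Qb ≃ₐ[ℚ] Qb) (hτ : τ ∈ A.decompositionSubgroup ℚ) : A →+* A where
  toFun x := ⟨τ x, Fermat.Agent.A2.H708.apply_mem_of_mem_decomposition A hτ x.2⟩
  map_one' := Subtype.ext (by show τ ((1 : A) : Qb) = ((1 : A) : Qb); simp)
  map_mul' x y := Subtype.ext (by
    show τ ((x * y : A) : Qb) = τ (x : Qb) * τ (y : Qb)
    simp)
  map_zero' := Subtype.ext (by show τ ((0 : A) : Qb) = ((0 : A) : Qb); simp)
  map_add' x y := Subtype.ext (by
    show τ ((x + y : A) : Qb) = τ (x : Qb) + τ (y : Qb)
    simp)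

theorem coe_decompHom (τ : Qb ≃ₐ[ℚ] Qb) (hτ : τ ∈ A.decompositionSubgroup ℚ) (x : A) :
    ((decompHom τ hτ x : A) : Qb) = τ x := rfl

theorem subtype_comp_decompHom (τ : Qb ≃ₐ[ℚ] Qb) (hτ : τ ∈ A.decompositionSubgroup ℚ) :
    A.subtype.comp (decompHom τ hτ) = (τ : Qb →+* Qb).comp A.subtype :=
  RingHom.ext fun _ => rfl

theorem residue_decompHom (τ : Qb ≃ₐ[ℚ] Qb) (hτ : τ ∈ A.inertiaSubgroupIn ℚ) (x : A) :
    IsLocalRing.residue A
        (decompHom τ (Fermat.Agent.A2.H708.mem_decomposition_of_mem_inertiaIn A hτ) x)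
      = IsLocalRing.residue A x := by
  have h := Fermat.Agent.A2.H708.sub_mem_nonunits_of_mem_inertiaIn A hτ x.2
  rw [← sub_eq_zero, ← map_sub, IsLocalRing.residue_eq_zero_iff,
    ← ValuationSubring.coe_mem_nonunits_iff]
  exact h

theorem residue_comp_decompHom (τ : Qb ≃ₐ[ℚ] Qb) (hτ : τ ∈ A.inertiaSubgroupIn ℚ) :
    (IsLocalRing.residue A).comp
        (decompHom τ (Fermat.Agent.A2.H708.mem_decomposition_of_mem_inertiaIn A hτ))
      = IsLocalRing.residue A :=
  RingHom.ext fun x => residue_decompHom τ hτ x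

/-- apply an inertia element to the coefficients of an `IntElt` -/
def twist (c : IntElt A N) (τ : Qb ≃ₐ[ℚ] Qb) (hτ : τ ∈ A.inertiaSubgroupIn ℚ) : IntElt A N where
  y := coeffMap (decompHom τ (Fermat.Agent.A2.H708.mem_decomposition_of_mem_inertiaIn A hτ)) c.y
  mem := by
    rw [coeffMap_coeffMap, subtype_comp_decompHom, ← coeffMap_coeffMap]
    exact coeffMap_mem_laurentBaseChange τ c.mem
  memk := by
    rw [coeffMap_coeffMap, residue_comp_decompHom τ hτ]
    exact c.memk

theorem twist_sp (c : IntElt A N) (τ : Qb ≃ₐ[ℚ] Qb) (hτ : τ ∈ A.inertiaSubgroupIn ℚ) :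
    (twist c τ hτ).sp = c.sp := by
  apply Subtype.ext
  show coeffMap (IsLocalRing.residue A) (coeffMap _ c.y) = coeffMap (IsLocalRing.residue A) c.y
  rw [coeffMap_coeffMap, residue_comp_decompHom τ hτ]

theorem twist_gen (c : IntElt A N) (τ : Qb ≃ₐ[ℚ] Qb) (hτ : τ ∈ A.inertiaSubgroupIn ℚ) :
    (twist c τ hτ).gen = arithmeticGalois (modularFunctionFieldFull N) τ • c.gen := by
  apply Subtype.ext
  show coeffMap A.subtype (coeffMap _ c.y) = coeffMap (τ : Qb →+* Qb) (coeffMap A.subtype c.y)
  rw [coeffMap_coeffMap, subtype_comp_decompHom, ← coeffMap_coeffMap]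

theorem twist_isFin (c : IntElt A N) (τ : Qb ≃ₐ[ℚ] Qb) (hτ : τ ∈ A.inertiaSubgroupIn ℚ)
    (hc : c.IsFin) : (twist c τ hτ).IsFin := by
  have h := IntOver.coeffMap hc
    (decompHom τ (Fermat.Agent.A2.H708.mem_decomposition_of_mem_inertiaIn A hτ))
  rw [coeffMap_jqModC] at h
  exact h

theorem twist_isInf (c : IntElt A N) (τ : Qb ≃ₐ[ℚ] Qb) (hτ : τ ∈ A.inertiaSubgroupIn ℚ)
    (hc : c.IsInf) : (twist c τ hτ).IsInf := by
  obtain ⟨u, hu, h⟩ := hc
  refine ⟨coeffMap (decompHom τ
    (Fermat.Agent.A2.H708.mem_decomposition_of_mem_inertiaIn A hτ)) u, ?_, IntOver.coeffMap h _⟩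
  have h1 := congrArg (coeffMap (decompHom τ
    (Fermat.Agent.A2.H708.mem_decomposition_of_mem_inertiaIn A hτ))) hu
  rwa [map_mul, map_one, coeffMap_jqModC] at h1

end Twist

end Fermat.Agent.S37.H877
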