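import Fermat.Agent.S37.Core.Geo

/-!
# S37 / [GAL] (helper877): generic lemmas on `HasValue`

`HasValue P f b` : the function `f` is regular at the place `P` with value `b`.
Here: arithmetic of values, uniqueness, behaviour under a semilinear automorphism.
-/

set_option autoImplicit false

noncomputable section

namespace Fermat.Agent.S37.H877

open AlgebraicCurve Fermat.Agent.S37.Core

section Nonunits

variable {F : Type*} [Field F] (O : ValuationSubring F)

theorem mem_nonunits_iff_inv {x : F} : x ∈ O.nonunits ↔ x = 0 ∨ x⁻¹ ∉ O := by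
  rw [ValuationSubring.mem_nonunits_iff]
  constructor
  · intro h
    by_cases hx : x = 0
    · exact Or.inl hx
    · refine Or.inr fun hmem => ?_
      have h1 : O.valuation x⁻¹ ≤ 1 := (O.valuation_le_one_iff _).mpr hmem
      rw [map_inv₀] at h1
      have h2 : O.valuation x ≠ 0 := (O.valuation.ne_zero_iff).mpr hx
      have h3 : 1 ≤ O.valuation x := by
        by_contra hlt
        rw [not_le] at hlt
        have : 1 < (O.valuation x)⁻¹ := (one_lt_inv₀ (zero_lt_iff.mpr h2)).mpr hlt
        exact absurd h1 (not_le.mpr this)
      exact absurd h (not_lt.mpr h3)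
  · rintro (rfl | h)
    · simp
    · by_contra hge
      rw [not_lt] at hge
      apply h
      rw [← O.valuation_le_one_iff, map_inv₀]
      exact inv_le_one_of_one_le₀ hge

theorem nonunits_add {x y : F} (hx : x ∈ O.nonunits) (hy : y ∈ O.nonunits) :
    x + y ∈ O.nonunits := by
  rw [ValuationSubring.mem_nonunits_iff] at *
  exact lt_of_le_of_lt (O.valuation.map_add x y) (max_lt hx hy)

theorem nonunits_neg {x : F} (hx : x ∈ O.nonunits) : -x ∈ O.nonunits := by
  rw [ValuationSubring.mem_nonunits_iff] at *
  rwa [Valuation.map_neg]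

theorem nonunits_sub {x y : F} (hx : x ∈ O.nonunits) (hy : y ∈ O.nonunits) :
    x - y ∈ O.nonunits := by
  rw [sub_eq_add_neg]
  exact nonunits_add O hx (nonunits_neg O hy)

theorem nonunits_mul_mem {x y : F} (hx : x ∈ O.nonunits) (hy : y ∈ O) :
    x * y ∈ O.nonunits := by
  rw [ValuationSubring.mem_nonunits_iff] at *
  rw [map_mul]
  have h1 : O.valuation y ≤ 1 := (O.valuation_le_one_iff _).mpr hy
  calc O.valuation x * O.valuation y ≤ O.valuation x * 1 := by gcongr
    _ = O.valuation x := mul_one _
    _ < 1 := hx

theorem nonunits_mem {x : F} (hx : x ∈ O.nonunits) : x ∈ O := by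
  rw [ValuationSubring.mem_nonunits_iff] at hx
  exact (O.valuation_le_one_iff _).mp hx.le

theorem zero_mem_nonunits : (0 : F) ∈ O.nonunits := by
  rw [ValuationSubring.mem_nonunits_iff]; simp

end Nonunits

section Values

variable {K F : Type*} [Field K] [Field F] [Algebra K F] {P : Place K F}

theorem hasValue_mem {f : F} {b : K} (h : HasValue P f b) : f ∈ P.toValuationSubring := by
  have h1 := nonunits_mem _ h
  have h2 := add_mem h1 (P.algebraMap_mem' b)
  simpa using h2

theorem algebraMap_not_mem_nonunits {c : K} (hc : c ≠ 0) :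
    algebraMap K F c ∉ P.toValuationSubring.nonunits := by
  intro h
  rcases (mem_nonunits_iff_inv _).mp h with h0 | h1
  · exact hc ((map_eq_zero (algebraMap K F)).mp h0)
  · apply h1
    rw [← map_inv₀]
    exact P.algebraMap_mem' _

theorem hasValue_unique {f : F} {b b' : K} (h : HasValue P f b) (h' : HasValue P f b') :
    b = b' := by
  by_contra hne
  have h1 := nonunits_sub _ h' h
  have h2 : f - algebraMap K F b' - (f - algebraMap K F b) = algebraMap K F (b - b') := by
    rw [map_sub]; ring
  rw [h2] at h1
  exact algebraMap_not_mem_nonunits (sub_ne_zero.mpr hne) h1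

theorem hasValue_algebraMap (b : K) : HasValue P (algebraMap K F b) b := by
  unfold HasValue
  rw [sub_self]
  exact zero_mem_nonunits _

theorem hasValue_zero_iff {b : K} : HasValue P (0 : F) b ↔ b = 0 := by
  constructor
  · intro h
    have h0 : HasValue P (0 : F) (0 : K) := by
      simpa using hasValue_algebraMap (P := P) (0 : K)
    exact hasValue_unique h h0
  · rintro rfl
    simpa using hasValue_algebraMap (P := P) (0 : K)

theorem hasValue_add {f g : F} {a b : K} (hf : HasValue P f a) (hg : HasValue P g b) :
    HasValue P (f + g) (a + b) := by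
  unfold HasValue at *
  have := nonunits_add _ hf hg
  rw [map_add]
  convert this using 1
  ring

theorem hasValue_mul {f g : F} {a b : K} (hf : HasValue P f a) (hg : HasValue P g b) :
    HasValue P (f * g) (a * b) := by
  have hgm := hasValue_mem hg
  unfold HasValue at *
  have h1 := nonunits_mul_mem _ hf hgm
  have h2 := nonunits_mul_mem _ hg (P.algebraMap_mem' a)
  have := nonunits_add _ h1 h2
  rw [map_mul]
  convert this using 1
  ring

/-- value of the inverse -/
theorem hasValue_inv {f : F} {a : K} (hf : HasValue P f a) (ha : a ≠ 0) :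
    HasValue P f⁻¹ a⁻¹ := by
  have hfm := hasValue_mem hf
  have hf0 : f ≠ 0 := by
    rintro rfl
    exact ha (hasValue_zero_iff.mp hf)
  -- `f` is a unit of the valuation ring
  have hfu : f⁻¹ ∈ P.toValuationSubring := by
    by_contra hno
    have h1 : f ∈ P.toValuationSubring.nonunits := (mem_nonunits_iff_inv _).mpr (Or.inr hno)
    have h2 := nonunits_sub _ h1 hf
    have h3 : f - (f - algebraMap K F a) = algebraMap K F a := by ring
    rw [h3] at h2
    exact algebraMap_not_mem_nonunits ha h2
  unfold HasValue at *
  have h4 := nonunits_mul_mem _ (nonunits_neg _ hf)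
    (mul_mem hfu (P.algebraMap_mem' a⁻¹))
  convert h4 using 1
  have ha' : algebraMap K F a ≠ 0 := by
    rwa [Ne, map_eq_zero]
  rw [map_inv₀]
  field_simp
  ring

/-- if `f` is not regular at `P` then `f⁻¹` vanishes at `P` -/
theorem hasValue_inv_zero_of_not_mem {f : F} (hf : f ∉ P.toValuationSubring) :
    HasValue P f⁻¹ 0 := by
  unfold HasValue
  rw [map_zero, sub_zero]
  refine (mem_nonunits_iff_inv _).mpr (Or.inr ?_)
  rwa [inv_inv]

/-- transport of values by a semilinear automorphism -/
theorem hasValue_smul (g : SemilinearAut K F) {f : F} {b : K} (h : HasValue P f b) :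
    HasValue (g • P) (g • f) (SemilinearAut.baseAut g b) := by
  unfold HasValue at *
  have h1 : g • f - algebraMap K F (SemilinearAut.baseAut g b)
      = g • (f - algebraMap K F b) := by
    rw [smul_sub, SemilinearAut.smul_algebraMap]
  rw [h1, SemilinearAut.smul_toValuationSubring]
  rcases (mem_nonunits_iff_inv _).mp h with h0 | h2
  · rw [h0, smul_zero]
    exact zero_mem_nonunits _
  · refine (mem_nonunits_iff_inv _).mpr (Or.inr fun hmem => h2 ?_)
    rw [← smul_inv''] at hmem
    exact (ValuationSubring.smul_mem_pointwise_smul_iff).mp hmem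

end Values

end Fermat.Agent.S37.H877
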